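import Fermat.Agent.S24.Degree
import Fermat.Agent.S24.A564.RHAssembly
import Fermat.Agent.RR7222.AlgClosed

/-!
# S37 / package RIEM (helper6352): library for the leaf `Fermat/Agent/S37/Leaf/RIEM.lean`

Riemann-type inputs for `F = modularFunctionFieldBar N` over `K = AlgebraicClosure ℚ`, in exactly the
shape of the hypotheses `hdeg`, `γ`/`hR`, `hp0` of `Fermat.Agent.S37.BH.eq_zero_of_bounded`
(helper231's bounded-hom lemma):

* `RIEM.deg_eq_one N v : v.deg = 1`;
* `RIEM.exists_effective N : ∃ γ : ℕ, ∀ D, degree D = γ → ∃ E ≥ 0, E - D ∈ principal`;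
* `RIEM.degree_principal N : ∀ D ∈ principal, degree D = 0`;
* `RIEM.riemann_inputs N` : the conjunction of the three.

The generic versions (`K` algebraically closed of characteristic zero, `x : F` transcendental with
`F / K(x)` finite) are `RIEM.Gen.*`.  Inputs: landed S24 (`A564.deg_eq_one`,
`A564.exists_finset_sum_ord_eq_zero`, `jBar_transcendental`, `finiteDimensional_jBar`) and the
Riemann library `Fermat.Agent.RR7222` (helper7222: `riemann_roch_of_transcendental`).
-/

set_option autoImplicit false

namespace Fermat.Agent.S37.RIEM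

open AlgebraicCurve IntermediateField

namespace Gen

variable {K : Type*} {F : Type*} [Field K] [Field F] [Algebra K F]

/-- Every residue field is finite over the constant field. -/
theorem finiteResidue [IsAlgClosed K] [CharZero K] (x : F) (hx : Transcendental K x)
    [FiniteDimensional K⟮x⟯ F] (v : Place K F) : v.FiniteResidue := by
  refine ⟨Module.finite_of_finrank_pos ?_⟩
  have h : Module.finrank K v.ResidueField = 1 := S24.A564.deg_eq_one x hx v
  rw [h]
  exact one_pos

/-- The degree of a divisor is the sum of its coefficients over any finite set containing its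
support, when all places have degree one. -/
theorem degree_eq_sum_of_subset (hdeg : ∀ v : Place K F, v.deg = 1) (D : Divisor K F)
    (S : Finset (Place K F)) (hS : D.support ⊆ S) : Divisor.degree D = ∑ v ∈ S, D v := by
  have h1 : Divisor.degree D = D.sum fun v n => n * (v.deg : ℤ) := by
    simp [Divisor.degree, Finsupp.liftAddHom_apply]
  rw [h1, Finsupp.sum_of_support_subset D hS _ (fun v _ => by simp)]
  refine Finset.sum_congr rfl fun v _ => ?_
  rw [hdeg v]
  simp

/-- Principal divisors exist and have degree zero. -/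
theorem hasPrincipalDivisors [IsAlgClosed K] [CharZero K] (x : F) (hx : Transcendental K x)
    [FiniteDimensional K⟮x⟯ F] : HasPrincipalDivisors K F := by
  classical
  refine ⟨fun f _ => ?_⟩
  obtain ⟨T, hT, hsum⟩ := S24.A564.exists_finset_sum_ord_eq_zero x hx f
  have hsupp : ∀ v : Place K F, v.ord f ≠ 0 → v ∈ T := fun v hv => by
    by_contra h
    exact hv (hT v h)
  refine ⟨Finsupp.onFinset T (fun v => v.ord f) hsupp, fun v => rfl, ?_⟩
  rw [degree_eq_sum_of_subset (S24.A564.deg_eq_one x hx) _ T Finsupp.support_onFinset_subset]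
  simpa using hsum

/-- `hp0`: principal divisors have degree zero. -/
theorem degree_principal [IsAlgClosed K] [CharZero K] (x : F) (hx : Transcendental K x)
    [FiniteDimensional K⟮x⟯ F] :
    ∀ D ∈ Divisor.principal (K := K) (F := F), Divisor.degree D = 0 := by
  intro D hD
  obtain ⟨f, hf, hDf⟩ := hD
  have := hasPrincipalDivisors (K := K) x hx
  obtain ⟨D', hD', hdeg⟩ := HasPrincipalDivisors.exists_divisor (K := K) f hf
  have hDD' : D = D' := Finsupp.ext fun v => by rw [hDf v, hD' v]
  rw [hDD']
  exact hdeg

/-- `hR` with `γ = genusFF K F`: every divisor of degree `g` is linearly equivalent to an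
effective divisor (Riemann's inequality `l(D) ≥ deg D + 1 - g`). -/
theorem exists_effective [IsAlgClosed K] [CharZero K] (x : F) (hx : Transcendental K x)
    [FiniteDimensional K⟮x⟯ F] :
    ∀ D : Divisor K F, Divisor.degree D = (genusFF K F : ℕ) →
      ∃ E : Divisor K F, (∀ v, 0 ≤ E v) ∧ E - D ∈ Divisor.principal (K := K) (F := F) := by
  classical
  intro D hD
  have := hasPrincipalDivisors (K := K) x hx
  have : ∀ v : Place K F, v.FiniteResidue := finiteResidue x hx
  have : CharZero K⟮x⟯ := charZero_of_injective_algebraMap (algebraMap K K⟮x⟯).injective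
  have : Algebra.IsSeparable K⟮x⟯ F := inferInstance
  obtain ⟨-, hfin, hrr⟩ := RR7222.riemann_roch_of_transcendental (K := K) x hx D
  have hpos : 0 < Module.finrank K ↥(riemannRochSpace D) := by
    rw [hD] at hrr
    omega
  have : Nontrivial ↥(riemannRochSpace D) := Module.finrank_pos_iff.mp hpos
  obtain ⟨⟨f, hfL⟩, hf0⟩ := exists_ne (0 : ↥(riemannRochSpace D))
  have hf : f ≠ 0 := fun h => hf0 (Subtype.ext h)
  obtain ⟨P, hP, -⟩ := HasPrincipalDivisors.exists_divisor (K := K) f hf
  refine ⟨D + P, fun v => ?_, ?_⟩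
  · rcases mem_riemannRochSpace_iff.mp hfL v with h | h
    · exact absurd h hf
    · rw [Finsupp.add_apply, hP v]
      omega
  · rw [add_sub_cancel_left]
    exact ⟨f, hf, hP⟩

end Gen

open ModularCurve

variable (N : ℕ) [NeZero N]

/-- `hdeg`: every place of `ℚ̄(X₀(N))` has degree one. -/
theorem deg_eq_one (v : Place (AlgebraicClosure ℚ) ↥(modularFunctionFieldBar N)) : v.deg = 1 :=
  haveI := S24.finiteDimensional_jBar N
  S24.A564.deg_eq_one (S24.jBar N) (S24.jBar_transcendental N) v

/-- `hp0`: principal divisors of `ℚ̄(X₀(N))` have degree zero. -/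
theorem degree_principal :
    ∀ D ∈ Divisor.principal (K := AlgebraicClosure ℚ) (F := ↥(modularFunctionFieldBar N)),
      Divisor.degree D = 0 :=
  haveI := S24.finiteDimensional_jBar N
  Gen.degree_principal (S24.jBar N) (S24.jBar_transcendental N)

/-- `hR` for `γ = genusFF`: every divisor of degree `g` on `X₀(N)` is equivalent to an effective one. -/
theorem exists_effective_of_degree_eq_genusFF :
    ∀ D : Divisor (AlgebraicClosure ℚ) ↥(modularFunctionFieldBar N),
      Divisor.degree D = (genusFF (AlgebraicClosure ℚ) ↥(modularFunctionFieldBar N) : ℕ) →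
      ∃ E : Divisor (AlgebraicClosure ℚ) ↥(modularFunctionFieldBar N), (∀ v, 0 ≤ E v) ∧
        E - D ∈ Divisor.principal (K := AlgebraicClosure ℚ) (F := ↥(modularFunctionFieldBar N)) :=
  haveI := S24.finiteDimensional_jBar N
  Gen.exists_effective (S24.jBar N) (S24.jBar_transcendental N)

/-- `γ` + `hR`. -/
theorem exists_effective :
    ∃ γ : ℕ, ∀ D : Divisor (AlgebraicClosure ℚ) ↥(modularFunctionFieldBar N),
      Divisor.degree D = γ →
      ∃ E : Divisor (AlgebraicClosure ℚ) ↥(modularFunctionFieldBar N), (∀ v, 0 ≤ E v) ∧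
        E - D ∈ Divisor.principal (K := AlgebraicClosure ℚ) (F := ↥(modularFunctionFieldBar N)) :=
  ⟨_, exists_effective_of_degree_eq_genusFF N⟩

/-- The three Riemann inputs of the bounded-hom lemma for `ℚ̄(X₀(N))`. -/
theorem riemann_inputs :
    (∀ v : Place (AlgebraicClosure ℚ) ↥(modularFunctionFieldBar N), v.deg = 1) ∧
    (∃ γ : ℕ, ∀ D : Divisor (AlgebraicClosure ℚ) ↥(modularFunctionFieldBar N),
      Divisor.degree D = γ →
      ∃ E : Divisor (AlgebraicClosure ℚ) ↥(modularFunctionFieldBar N), (∀ v, 0 ≤ E v) ∧
        E - D ∈ Divisor.principal (K := AlgebraicClosure ℚ) (F := ↥(modularFunctionFieldBar N))) ∧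
    (∀ D ∈ Divisor.principal (K := AlgebraicClosure ℚ) (F := ↥(modularFunctionFieldBar N)),
      Divisor.degree D = 0) :=
  ⟨deg_eq_one N, exists_effective N, degree_principal N⟩

end Fermat.Agent.S37.RIEM
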